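import Fermat.Agent.Models.NodeCoord
import Fermat.Agent.Models.SS

/-!
# Slopes and monodromy at nodes
-/

set_option autoImplicit false
set_option linter.unusedSectionVars false
set_option linter.style.haveILetI false

noncomputable section

namespace Fermat.Agent.Mono

open AlgebraicCurve Fermat.Agent.Curves Polynomial Fermat.Agent.Models

section So

variable {k κ : Type*} [Field k] [Field κ] {B : Res k κ} {F : Type*} [Field F] [Algebra k F]
  {𝓕₀ : Type*} [Field 𝓕₀] [Algebra κ 𝓕₀] (C : Comp B F 𝓕₀)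

theorem r_ne_zero_of_algebraMap {a : k} (h : C.r (algebraMap k F a) ≠ 0) : B.r a ≠ 0 := by
  intro h0
  have h1 : a ∈ B.O := C.algebraMap_mem_iff.mp (Res.mem_of_r_ne_zero h)
  exact h (C.r_algebraMap_eq_zero h1 h0)

/-- two scales differ by a unit -/
theorem scale_unit {x : F} {c c' : k} (hc : C.r (algebraMap k F c * x) ≠ 0)
    (hc' : C.r (algebraMap k F c' * x) ≠ 0) : B.r (c' / c) ≠ 0 := by
  have hx : x ≠ 0 := right_ne_zero_of_mul (Res.ne_zero_of_r hc)
  have hcF : algebraMap k F c ≠ 0 := left_ne_zero_of_mul (Res.ne_zero_of_r hc)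
  have h1 := Res.r_div_ne_zero hc' hc
  have e : algebraMap k F c' * x / (algebraMap k F c * x) = algebraMap k F (c' / c) := by
    rw [map_div₀]; field_simp
  rw [e] at h1
  exact r_ne_zero_of_algebraMap C h1

variable [IsAlgClosed κ] [IsFunctionField κ 𝓕₀]

open Classical in
/-- order of the normalised residue -/
def so (𝔭 : Place κ 𝓕₀) (x : F) : ℤ :=
  if h : x = 0 then 0 else 𝔭.ord (C.r (algebraMap k F (C.exists_scale x h).choose * x))

theorem ord_eq_of_scales (𝔭 : Place κ 𝓕₀) {x : F} {c c' : k}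
    (hc : C.r (algebraMap k F c * x) ≠ 0) (hc' : C.r (algebraMap k F c' * x) ≠ 0) :
    𝔭.ord (C.r (algebraMap k F c' * x)) = 𝔭.ord (C.r (algebraMap k F c * x)) := by
  have hcF : algebraMap k F c ≠ 0 := left_ne_zero_of_mul (Res.ne_zero_of_r hc)
  have h1 := scale_unit C hc hc'
  have e : algebraMap k F c' * x = algebraMap k F (c' / c) * (algebraMap k F c * x) := by
    rw [map_div₀]; field_simp
  rw [e, Res.r_mul (Res.mem_of_r_ne_zero (C.r_algebraMap_ne_zero h1)) (Res.mem_of_r_ne_zero hc),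
    𝔭.ord_mul (C.r_algebraMap_ne_zero h1) hc, C.r_algebraMap _ (Res.mem_of_r_ne_zero h1),
    ord_algebraMap, zero_add]

theorem so_eq (𝔭 : Place κ 𝓕₀) {x : F} {c : k} (hc : C.r (algebraMap k F c * x) ≠ 0) :
    so C 𝔭 x = 𝔭.ord (C.r (algebraMap k F c * x)) := by
  have hx : x ≠ 0 := right_ne_zero_of_mul (Res.ne_zero_of_r hc)
  rw [so, dif_neg hx]
  exact ord_eq_of_scales C 𝔭 hc (C.exists_scale x hx).choose_spec.2

theorem so_eq' (𝔭 : Place κ 𝓕₀) {x : F} (hc : C.r x ≠ 0) : so C 𝔭 x = 𝔭.ord (C.r x) := by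
  have := so_eq C 𝔭 (x := x) (c := 1) (by rwa [map_one, one_mul])
  rwa [map_one, one_mul] at this

theorem so_zero (𝔭 : Place κ 𝓕₀) : so C 𝔭 (0 : F) = 0 := by rw [so, dif_pos rfl]

theorem so_mul (𝔭 : Place κ 𝓕₀) {x y : F} (hx : x ≠ 0) (hy : y ≠ 0) :
    so C 𝔭 (x * y) = so C 𝔭 x + so C 𝔭 y := by
  obtain ⟨c, hc0, hc⟩ := C.exists_scale x hx
  obtain ⟨d, hd0, hd⟩ := C.exists_scale y hy
  have e : algebraMap k F (c * d) * (x * y) = (algebraMap k F c * x) * (algebraMap k F d * y) := by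
    rw [map_mul]; ring
  have h : C.r (algebraMap k F (c * d) * (x * y)) ≠ 0 := by
    rw [e]; exact Res.r_mul_ne_zero hc hd
  rw [so_eq C 𝔭 hc, so_eq C 𝔭 hd, so_eq C 𝔭 h, e,
    Res.r_mul (Res.mem_of_r_ne_zero hc) (Res.mem_of_r_ne_zero hd), 𝔭.ord_mul hc hd]

theorem so_algebraMap (𝔭 : Place κ 𝓕₀) (a : k) : so C 𝔭 (algebraMap k F a) = 0 := by
  rcases eq_or_ne a 0 with rfl | ha
  · rw [map_zero, so_zero]
  · have e : algebraMap k F a⁻¹ * algebraMap k F a = 1 := by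
      rw [← map_mul, inv_mul_cancel₀ ha, map_one]
    have h : C.r (algebraMap k F a⁻¹ * algebraMap k F a) ≠ 0 := by
      rw [e, Res.r_one]; exact one_ne_zero
    rw [so_eq C 𝔭 h, e, Res.r_one]
    simp

theorem so_one (𝔭 : Place κ 𝓕₀) : so C 𝔭 (1 : F) = 0 := by
  have := so_algebraMap C 𝔭 (1 : k)
  rwa [map_one] at this

theorem so_inv (𝔭 : Place κ 𝓕₀) (x : F) : so C 𝔭 x⁻¹ = -so C 𝔭 x := by
  rcases eq_or_ne x 0 with rfl | hx
  · rw [inv_zero, so_zero, neg_zero]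
  · have := so_mul C 𝔭 hx (inv_ne_zero hx)
    rw [mul_inv_cancel₀ hx, so_one] at this
    omega

theorem so_pow (𝔭 : Place κ 𝓕₀) (x : F) (n : ℕ) : so C 𝔭 (x ^ n) = n * so C 𝔭 x := by
  rcases eq_or_ne x 0 with rfl | hx
  · rcases Nat.eq_zero_or_pos n with rfl | hn
    · rw [pow_zero, so_one]; simp
    · rw [zero_pow hn.ne', so_zero, mul_zero]
  · induction n with
    | zero => rw [pow_zero, so_one]; simp
    | succ n ih => rw [pow_succ, so_mul C 𝔭 (pow_ne_zero _ hx) hx, ih]; push_cast; ring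

theorem so_zpow (𝔭 : Place κ 𝓕₀) (x : F) (n : ℤ) : so C 𝔭 (x ^ n) = n * so C 𝔭 x := by
  obtain ⟨m, rfl | rfl⟩ := n.eq_nat_or_neg
  · rw [zpow_natCast, so_pow]
  · rw [zpow_neg, zpow_natCast, so_inv, so_pow]; ring

theorem so_div (𝔭 : Place κ 𝓕₀) {x y : F} (hx : x ≠ 0) (hy : y ≠ 0) :
    so C 𝔭 (x / y) = so C 𝔭 x - so C 𝔭 y := by
  rw [div_eq_mul_inv, so_mul C 𝔭 hx (inv_ne_zero hy), so_inv]; ring

end So

variable {k κ : Type*} [Field k] [Field κ] {B : Res k κ} {F : Type*} [Field F] [Algebra k F]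
  {ι : Type*} {𝓕 : ι → Type*} [∀ i, Field (𝓕 i)] [∀ i, Algebra κ (𝓕 i)]
  {C : ∀ i, Comp B F (𝓕 i)}
  [IsAlgClosed k] [IsAlgClosed κ] [IsFunctionField k F] [∀ i, IsFunctionField κ (𝓕 i)]
  [Fintype ι] [DecidableEq ι] [Nonempty ι]

/-- A point with exactly two branches on different components. -/
structure Node2 (C : ∀ i, Comp B F (𝓕 i)) (t : F) (M : Ideal (chart C t)) (i₁ i₂ : ι)
    (𝔭₁ : Place κ (𝓕 i₁)) (𝔭₂ : Place κ (𝓕 i₂)) : Prop where
  ne : i₁ ≠ i₂
  spec₁ : 𝔭₁ ∈ spec t M i₁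
  spec₂ : 𝔭₂ ∈ spec t M i₂
  others : ∀ j, j ≠ i₁ → j ≠ i₂ → ¬ (spec t M j).Nonempty

variable {t : F} {M : Ideal (chart C t)} {i₁ i₂ : ι}
  {𝔭₁ : Place κ (𝓕 i₁)} {𝔭₂ : Place κ (𝓕 i₂)}

namespace Node2

theorem symm (h : Node2 C t M i₁ i₂ 𝔭₁ 𝔭₂) : Node2 C t M i₂ i₁ 𝔭₂ 𝔭₁ where
  ne := h.ne.symm
  spec₁ := h.spec₂
  spec₂ := h.spec₁
  others j h1 h2 := h.others j h2 h1

theorem branch (h : Node2 C t M i₁ i₂ 𝔭₁ 𝔭₂) (i : ι) (hi : (spec t M i).Nonempty) :
    i = i₁ ∨ i = i₂ := by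
  by_contra! hne
  exact h.others i hne.1 hne.2 hi

/-- a function without zeros and poles near the node which is a unit at the first branch is a
unit at the second one -/
theorem unit₂ (hB : B.RankOne) (hC : Incomp C) (ht : IsGood C t) (hS : Surj C t)
    (h : Node2 C t M i₁ i₂ 𝔭₁ 𝔭₂) {x : F} (hx : ∀ P ∈ gen t M, P.ord x = 0)
    (h1 : (C i₁).r x ≠ 0) (h1o : 𝔭₁.ord ((C i₁).r x) = 0) :
    (C i₂).r x ≠ 0 ∧ 𝔭₂.ord ((C i₂).r x) = 0 := by
  have hx0 : x ≠ 0 := Res.ne_zero_of_r h1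
  obtain ⟨c, hc0, hc⟩ := (C i₂).exists_scale x hx0
  have hcF : algebraMap k F c ≠ 0 := by simpa using hc0
  have hgenmem : ∀ d : k, ∀ P ∈ gen t M, algebraMap k F d * x ∈ P.toValuationSubring :=
    fun d P hP => mul_mem (P.algebraMap_mem' d) ((mem_iff_ord P hx0).mpr (hx P hP).ge)
  have hgen0 : ∀ d : k, d ≠ 0 → ∀ P ∈ gen t M, P.ord (algebraMap k F d * x) = 0 := by
    intro d hd P hP
    rw [P.ord_mul (by simpa using hd) hx0, hx P hP, ord_algebraMap, add_zero]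
  by_cases hcO : c ∈ B.O
  · by_cases hcr : B.r c = 0
    · -- `c` small
      exfalso
      have hD : DUnit C t M i₂ i₁ 𝔭₂ 𝔭₁ (algebraMap k F c * x) c :=
        { ne := h.ne.symm
          spec₁ := h.spec₂
          spec₂ := h.spec₁
          others := h.symm.others
          ϖ_ne := hc0
          ϖ_mem := hcO
          ϖ_r := hcr
          r₁ := hc
          r₂ := by rw [mul_div_cancel_left₀ _ hcF]; exact h1
          gen := hgen0 c hc0 }
      have h2 := hD.slope hB hC ht hS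
      have h3 := hD.one_le hB hC ht hS
      rw [mul_div_cancel_left₀ _ hcF, h1o] at h2
      omega
    · -- `c` unit
      have h2 : (C i₂).r x ≠ 0 := by
        have e : x = algebraMap k F c⁻¹ * (algebraMap k F c * x) := by
          rw [map_inv₀, inv_mul_cancel_left₀ hcF]
        rw [e]
        exact Res.r_mul_ne_zero ((C i₂).r_algebraMap_ne_zero (Res.r_inv_ne_zero hcr)) hc
      refine DUnit.ord_zero_of hB hC ht hS h.spec₁ h.spec₂
        (fun P hP => (mem_iff_ord P hx0).mpr (hx P hP).ge) (fun l hl => ?_) h1 h1o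
      rcases h.branch l hl with rfl | rfl
      · exact Res.mem_of_r_ne_zero h1
      · exact Res.mem_of_r_ne_zero h2
  · -- `c⁻¹` small
    exfalso
    have h2 := Res.inv_mem_of_notMem hcO
    have h3 := Res.r_inv_of_notMem hcO
    have hD : DUnit C t M i₁ i₂ 𝔭₁ 𝔭₂ x c⁻¹ :=
      { ne := h.ne
        spec₁ := h.spec₁
        spec₂ := h.spec₂
        others := h.others
        ϖ_ne := inv_ne_zero hc0
        ϖ_mem := h2
        ϖ_r := h3
        r₁ := h1
        r₂ := by rw [map_inv₀, div_inv_eq_mul, mul_comm]; exact hc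
        gen := hx }
    have h4 := hD.one_le hB hC ht hS
    omega

end Node2

namespace Coord

theorem toNode2 {Y : F} {ϖ : k} (h : IsNode C t M i₁ i₂ 𝔭₁ 𝔭₂ Y ϖ) :
    Node2 C t M i₁ i₂ 𝔭₁ 𝔭₂ where
  ne := h.ne
  spec₁ := h.spec₁
  spec₂ := h.spec₂
  others := h.others

end Coord

end Fermat.Agent.Mono
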