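import Fermat.Agent.Mono.Basic

/-!
# The coordinate at a node, local generators, slopes and monodromy
-/

set_option autoImplicit false
set_option linter.unusedSectionVars false
set_option linter.style.haveILetI false

noncomputable section

namespace Fermat.Agent.Mono

open AlgebraicCurve Fermat.Agent.Curves Polynomial Fermat.Agent.Models

variable {k κ : Type*} [Field k] [Field κ] {B : Res k κ} {F : Type*} [Field F] [Algebra k F]
  {ι : Type*} {𝓕 : ι → Type*} [∀ i, Field (𝓕 i)] [∀ i, Algebra κ (𝓕 i)]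
  {C : ∀ i, Comp B F (𝓕 i)}
  [IsAlgClosed k] [IsAlgClosed κ] [IsFunctionField k F] [∀ i, IsFunctionField κ (𝓕 i)]
  [Fintype ι] [DecidableEq ι] [Nonempty ι]

variable {t : F} {M : Ideal (chart C t)} {i₁ i₂ : ι}
  {𝔭₁ : Place κ (𝓕 i₁)} {𝔭₂ : Place κ (𝓕 i₂)}

open Classical in
/-- **The coordinate at a node.** -/
theorem coord (hB : B.RankOne) (hBc : B.Commens) (hC : Incomp C) (ht : IsGood C t)
    (hS : Surj C t) {Y : F} {ϖ : k} (h : IsNode C t M i₁ i₂ 𝔭₁ 𝔭₂ Y ϖ) {P : Place k F}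
    (hP : P ∈ gen t M) :
    value P Y ≠ 0 ∧ (C i₁).r (Y - algebraMap k F (value P Y)) = (C i₁).r Y ∧
      (C i₂).r ((Y - algebraMap k F (value P Y)) / algebraMap k F (value P Y)) = -1 ∧
      ∀ Q ∈ gen t M, Q.ord (Y - algebraMap k F (value P Y)) = if Q = P then 1 else 0 := by
  classical
  have hM := isPoint_of_spec hB hC ht ⟨𝔭₁, h.spec₁⟩
  have hϖF : algebraMap k F ϖ ≠ 0 := by simpa using h.ϖ_ne
  have hY0 : Y ≠ 0 := Res.ne_zero_of_r h.r₁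
  have hbr : ∀ i, (spec t M i).Nonempty → i = i₁ ∨ i = i₂ := by
    intro i hi
    by_contra! hne
    exact h.others i hne.1 hne.2 hi
  have hY2 : Y ∈ (C i₂).O ∧ (C i₂).r Y = 0 := by
    have e : Y = algebraMap k F ϖ * (Y / algebraMap k F ϖ) := by field_simp
    have h1 := Res.mem_of_r_ne_zero h.r₂
    rw [e]
    refine ⟨mul_mem ((C i₂).algebraMap_mem _ h.ϖ_mem) h1, ?_⟩
    rw [Res.r_mul ((C i₂).algebraMap_mem _ h.ϖ_mem) h1, (C i₂).r_algebraMap_eq_zero h.ϖ_mem h.ϖ_r,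
      zero_mul]
  have hYinv1 : algebraMap k F ϖ / Y ∈ (C i₁).O ∧ (C i₁).r (algebraMap k F ϖ / Y) = 0 := by
    rw [div_eq_mul_inv]
    refine ⟨mul_mem ((C i₁).algebraMap_mem _ h.ϖ_mem) (Res.inv_mem_of_r h.r₁), ?_⟩
    rw [Res.r_mul ((C i₁).algebraMap_mem _ h.ϖ_mem) (Res.inv_mem_of_r h.r₁),
      (C i₁).r_algebraMap_eq_zero h.ϖ_mem h.ϖ_r, zero_mul]
  have hYloc : Y ∈ loc t M hM.isMaximal.isPrime := mem_loc_of hB hC ht hS hM
    (fun P hP => (mem_iff_ord P hY0).mpr (h.gen P hP).ge) fun i hi => by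
      rcases hbr i hi with rfl | rfl
      · exact Res.mem_of_r_ne_zero h.r₁
      · exact hY2.1
  have hYiloc : algebraMap k F ϖ / Y ∈ loc t M hM.isMaximal.isPrime :=
    mem_loc_of hB hC ht hS hM (fun P hP => by
      rw [div_eq_mul_inv]
      exact mul_mem (P.algebraMap_mem' _) ((mem_iff_ord P (inv_ne_zero hY0)).mpr
        (by rw [P.ord_inv, h.gen P hP]; simp))) fun i hi => by
      rcases hbr i hi with rfl | rfl
      · exact hYinv1.1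
      · have := Res.inv_mem_of_r h.r₂
        rwa [inv_div] at this
  obtain ⟨hPY, hPYO⟩ := loc_mem_place hB hC ht _ hP hYloc
  obtain ⟨hPYi, hPYiO⟩ := loc_mem_place hB hC ht _ hP hYiloc
  set a := value P Y with ha
  have ha0 : a ≠ 0 := (value_ne_zero_iff hY0 hPY).mpr (h.gen P hP)
  have har : B.r a = 0 := by
    rw [ha, loc_value_place hB hC ht _ hP h.spec₂ hYloc, hY2.2]
    have := value_algebraMap 𝔭₂ (0 : κ)
    rwa [map_zero] at this
  have haF : algebraMap k F a ≠ 0 := by simpa using ha0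
  -- `ϖ / a` is small
  have hϖa : value P (algebraMap k F ϖ / Y) = ϖ / a := by
    have h1 := value_inv' hPY ha0
    rw [div_eq_mul_inv, value_mul P (P.algebraMap_mem' _) h1.1, h1.2, value_algebraMap,
      ← div_eq_mul_inv]
  have hϖaO : ϖ / a ∈ B.O := by rw [← hϖa]; exact hPYiO
  have hϖar : B.r (ϖ / a) = 0 := by
    rw [← hϖa, loc_value_place hB hC ht _ hP h.spec₁ hYiloc, hYinv1.2]
    have := value_algebraMap 𝔭₁ (0 : κ)
    rwa [map_zero] at this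
  set g : F := Y - algebraMap k F a with hg
  have hg1 : (C i₁).r g = (C i₁).r Y := by
    rw [hg, Res.r_sub (Res.mem_of_r_ne_zero h.r₁) ((C i₁).algebraMap_mem _ hPYO),
      (C i₁).r_algebraMap_eq_zero hPYO har, sub_zero]
  have hg10 : (C i₁).r g ≠ 0 := by rw [hg1]; exact h.r₁
  have hg0 : g ≠ 0 := Res.ne_zero_of_r hg10
  have hg2 : (C i₂).r (g / algebraMap k F a) = -1 := by
    have e : g / algebraMap k F a =
        (Y / algebraMap k F ϖ) * algebraMap k F (ϖ / a) - 1 := by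
      rw [hg, map_div₀]
      field_simp
    rw [e, Res.r_sub (mul_mem (Res.mem_of_r_ne_zero h.r₂) ((C i₂).algebraMap_mem _ hϖaO))
      (one_mem _), Res.r_mul (Res.mem_of_r_ne_zero h.r₂) ((C i₂).algebraMap_mem _ hϖaO),
      (C i₂).r_algebraMap_eq_zero hϖaO hϖar, mul_zero, Res.r_one, zero_sub]
  have hg20 : (C i₂).r (g / algebraMap k F a) ≠ 0 := by
    rw [hg2]; exact neg_ne_zero.mpr one_ne_zero
  -- comparison of values
  obtain ⟨m, n, hm, hmn⟩ := hBc a ϖ ha0 h.ϖ_ne hPYO h.ϖ_mem har h.ϖ_r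
  have hx1 : (C i₁).r (g ^ m / Y ^ n) = (C i₁).r Y ^ m / (C i₁).r Y ^ n := by
    rw [Res.r_div (pow_mem (Res.mem_of_r_ne_zero hg10) m) (Res.r_pow_ne_zero h.r₁ n),
      Res.r_pow (Res.mem_of_r_ne_zero hg10), Res.r_pow (Res.mem_of_r_ne_zero h.r₁), hg1]
  have ex : g ^ m / Y ^ n = (g / algebraMap k F a) ^ m * ((Y / algebraMap k F ϖ) ^ n)⁻¹ *
      algebraMap k F (a ^ m / ϖ ^ n) := by
    rw [map_div₀, map_pow, map_pow, div_pow, div_pow]
    field_simp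
  have hcr := (C i₂).r_algebraMap_ne_zero hmn
  have hx2 : (C i₂).r (g ^ m / Y ^ n) = (-1) ^ m * ((C i₂).r (Y / algebraMap k F ϖ) ^ n)⁻¹ *
      algebraMap κ (𝓕 i₂) (B.r (a ^ m / ϖ ^ n)) := by
    have h1 := Res.r_pow_ne_zero hg20 m
    have h2 := Res.r_pow_ne_zero h.r₂ n
    rw [ex, Res.r_mul (mul_mem (Res.mem_of_r_ne_zero h1) (Res.inv_mem_of_r h2))
      (Res.mem_of_r_ne_zero hcr), Res.r_mul (Res.mem_of_r_ne_zero h1) (Res.inv_mem_of_r h2),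
      Res.r_pow (Res.mem_of_r_ne_zero hg20), hg2, Res.r_inv h2,
      Res.r_pow (Res.mem_of_r_ne_zero h.r₂),
      (C i₂).r_algebraMap _ (Res.mem_of_r_ne_zero hmn)]
  have hx0 : g ^ m / Y ^ n ≠ 0 := div_ne_zero (pow_ne_zero _ hg0) (pow_ne_zero _ hY0)
  have hcnt := local_conserve' hB hC ht hS hM hx0 (fun i hi => by
    rcases hbr i hi with rfl | rfl
    · rw [hx1]; exact div_ne_zero (pow_ne_zero _ h.r₁) (pow_ne_zero _ h.r₁)
    · rw [ex]
      exact Res.r_mul_ne_zero (Res.r_mul_ne_zero (Res.r_pow_ne_zero hg20 m)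
        (Res.r_inv_ne_zero (Res.r_pow_ne_zero h.r₂ n))) hcr)
  rw [h.sum_eq ht hS, cnt_div _ (pow_ne_zero _ hg0) (pow_ne_zero _ hY0), cnt_pow, cnt_pow,
    cnt_eq_zero h.gen, mul_zero, sub_zero, hx1, hx2] at hcnt
  have ho1 : 𝔭₁.ord ((C i₁).r Y ^ m / (C i₁).r Y ^ n) = m - n := by
    rw [div_eq_mul_inv, 𝔭₁.ord_mul (pow_ne_zero _ h.r₁) (inv_ne_zero (pow_ne_zero _ h.r₁)),
      𝔭₁.ord_inv, ord_pow, ord_pow, h.ord₁]
    ring
  have ho2 : 𝔭₂.ord ((-1) ^ m * ((C i₂).r (Y / algebraMap k F ϖ) ^ n)⁻¹ *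
      algebraMap κ (𝓕 i₂) (B.r (a ^ m / ϖ ^ n))) = n := by
    have h1 : ((-1 : 𝓕 i₂)) ^ m = algebraMap κ (𝓕 i₂) ((-1) ^ m) := by
      rw [map_pow, map_neg, map_one]
    have h2 : ((C i₂).r (Y / algebraMap k F ϖ) ^ n)⁻¹ ≠ 0 := inv_ne_zero (pow_ne_zero _ h.r₂)
    have h3 : algebraMap κ (𝓕 i₂) ((-1) ^ m) ≠ 0 := by
      rw [← h1]; exact pow_ne_zero _ (neg_ne_zero.mpr one_ne_zero)
    have h4 : algebraMap κ (𝓕 i₂) (B.r (a ^ m / ϖ ^ n)) ≠ 0 := by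
      rw [Ne, FaithfulSMul.algebraMap_eq_zero_iff]
      exact hmn
    rw [h1, 𝔭₂.ord_mul (mul_ne_zero h3 h2) h4, 𝔭₂.ord_mul h3 h2, 𝔭₂.ord_inv, ord_pow, h.ord₂,
      ord_algebraMap, ord_algebraMap]
    ring
  rw [ho1, ho2, sub_add_cancel] at hcnt
  have hcnt1 : cnt (gen t M) g = 1 := by
    have : (m : ℤ) ≠ 0 := by exact_mod_cast hm.ne'
    exact mul_left_cancel₀ this (by rw [hcnt, mul_one])
  have hgloc : g ∈ loc t M hM.isMaximal.isPrime :=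
    sub_mem hYloc (chart_le_loc _ (algebraMap_mem_chart t hPYO))
  have hnn : ∀ Q ∈ gen t M, 0 ≤ Q.ord g := fun Q hQ =>
    (mem_iff_ord Q hg0).mp (loc_mem_place hB hC ht _ hQ hgloc).1
  have hP1 : 1 ≤ P.ord g := by
    have := value_spec P hPY
    rw [val_lt_one_iff, ← ha, ← hg, or_iff_right hg0] at this
    omega
  exact ⟨ha0, hg1, hg2, fun Q hQ => ord_eq_of_cnt_one hnn hcnt1.le hP hP1 Q hQ⟩

/-- **Local generators at a node.** -/
theorem exists_gen_node (hB : B.RankOne) (hBc : B.Commens) (hC : Incomp C) (ht : IsGood C t)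
    (hS : Surj C t) {Y : F} {ϖ : k} (h : IsNode C t M i₁ i₂ 𝔭₁ 𝔭₂ Y ϖ) (D : Divisor k F) :
    ∃ (g : F) (a : k), a ≠ 0 ∧ (∀ P ∈ gen t M, P.ord g = D P) ∧ (C i₁).r g ≠ 0 ∧
      (C i₂).r (g / algebraMap k F a) ≠ 0 ∧ 𝔭₂.ord ((C i₂).r (g / algebraMap k F a)) = 0 := by
  classical
  -- a single place
  have h1 : ∀ P : Place k F, ∃ (g : F) (a : k), a ≠ 0 ∧ (C i₁).r g ≠ 0 ∧
      (C i₂).r (g / algebraMap k F a) ≠ 0 ∧ 𝔭₂.ord ((C i₂).r (g / algebraMap k F a)) = 0 ∧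
      (P ∈ gen t M → ∀ Q ∈ gen t M, Q.ord g = if Q = P then 1 else 0) := by
    intro P
    by_cases hP : P ∈ gen t M
    · obtain ⟨h2, h3, h4, h5⟩ := coord hB hBc hC ht hS h hP
      refine ⟨_, _, h2, by rw [h3]; exact h.r₁, ?_, ?_, fun _ => h5⟩
      · rw [h4]; exact neg_ne_zero.mpr one_ne_zero
      · rw [h4]
        have e : (-1 : 𝓕 i₂) = algebraMap κ (𝓕 i₂) (-1) := by rw [map_neg, map_one]
        rw [e, ord_algebraMap]
    · refine ⟨1, 1, one_ne_zero, by rw [Res.r_one]; exact one_ne_zero, ?_, ?_,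
        fun h => absurd h hP⟩
      · rw [map_one, div_one, Res.r_one]; exact one_ne_zero
      · rw [map_one, div_one, Res.r_one]; simp
  choose g a ha hg1 hg2 hg3 hg4 using h1
  have hg0 : ∀ P, g P ≠ 0 := fun P => Res.ne_zero_of_r (hg1 P)
  set S := D.support.filter (fun P => P ∈ gen t M) with hS'
  have haF : ∀ P, algebraMap k F (a P) ≠ 0 := fun P => by simpa using ha P
  have e2 : (∏ P ∈ S, g P ^ D P) / algebraMap k F (∏ P ∈ S, a P ^ D P) =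
      ∏ P ∈ S, (g P / algebraMap k F (a P)) ^ D P := by
    rw [map_prod, ← Finset.prod_div_distrib]
    refine Finset.prod_congr rfl fun P _ => ?_
    rw [map_zpow₀, div_zpow]
  have hz1 : ∀ P, (C i₁).r (g P ^ D P) ≠ 0 := fun P => by
    rw [Res.r_zpow (hg1 P)]; exact zpow_ne_zero _ (hg1 P)
  have hz2 : ∀ P, (C i₂).r ((g P / algebraMap k F (a P)) ^ D P) ≠ 0 := fun P => by
    rw [Res.r_zpow (hg2 P)]; exact zpow_ne_zero _ (hg2 P)
  refine ⟨∏ P ∈ S, g P ^ D P, ∏ P ∈ S, a P ^ D P,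
    Finset.prod_ne_zero_iff.mpr fun P _ => zpow_ne_zero _ (ha P), fun Q hQ => ?_, ?_, ?_, ?_⟩
  · rw [ord_prod Q _ _ fun P _ => zpow_ne_zero _ (hg0 P)]
    have h2 : ∀ P ∈ S, Q.ord (g P ^ D P) = if Q = P then D P else 0 := by
      intro P hP
      rw [ord_zpow', hg4 P (Finset.mem_filter.mp hP).2 Q hQ]
      split_ifs <;> ring
    rw [Finset.sum_congr rfl h2, Finset.sum_ite_eq]
    split_ifs with h3
    · rfl
    · rw [hS', Finset.mem_filter, not_and_or, Finsupp.notMem_support_iff] at h3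
      exact (h3.resolve_right (not_not.mpr hQ)).symm
  · rw [Res.r_prod _ _ fun P _ => Res.mem_of_r_ne_zero (hz1 P), Finset.prod_ne_zero_iff]
    exact fun P _ => hz1 P
  · rw [e2, Res.r_prod _ _ fun P _ => Res.mem_of_r_ne_zero (hz2 P), Finset.prod_ne_zero_iff]
    exact fun P _ => hz2 P
  · rw [e2, Res.r_prod _ _ fun P _ => Res.mem_of_r_ne_zero (hz2 P),
      ord_prod 𝔭₂ _ _ fun P _ => hz2 P]
    refine Finset.sum_eq_zero fun P _ => ?_
    rw [Res.r_zpow (hg2 P), ord_zpow', hg3 P, mul_zero]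

/-- **Slopes and scales at a node.** -/
theorem slope_node (hB : B.RankOne) (hBc : B.Commens) (hC : Incomp C) (ht : IsGood C t)
    (hS : Surj C t) {Y : F} {ϖ : k} (h : IsNode C t M i₁ i₂ 𝔭₁ 𝔭₂ Y ϖ) {n : ℕ}
    {D : Divisor k F} {u : F} (hu0 : u ≠ 0) (hu : ∀ P ∈ gen t M, P.ord u = n * D P)
    {c : k} (hc : (C i₁).r (algebraMap k F c * u) ≠ 0) {g : F} {a : k} (ha : a ≠ 0)
    (hg : ∀ P ∈ gen t M, P.ord g = D P) (hg1 : (C i₁).r g ≠ 0)
    (hg2 : (C i₂).r (g / algebraMap k F a) ≠ 0)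
    (hg3 : 𝔭₂.ord ((C i₂).r (g / algebraMap k F a)) = 0) :
    so (C i₁) 𝔭₁ u = -so (C i₂) 𝔭₂ u + n * 𝔭₁.ord ((C i₁).r g) ∧
      (C i₂).r (algebraMap k F (c / (a ^ n * ϖ ^ (-so (C i₂) 𝔭₂ u))) * u) ≠ 0 := by
  have hN := Coord.toNode2 h
  have hg0 : g ≠ 0 := Res.ne_zero_of_r hg1
  have hY0 : Y ≠ 0 := Res.ne_zero_of_r h.r₁
  have hc0 : c ≠ 0 := by
    rintro rfl
    rw [map_zero, zero_mul, Res.r_zero] at hc
    exact hc rfl
  have hcF : algebraMap k F c ≠ 0 := by simpa using hc0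
  have haF : algebraMap k F a ≠ 0 := by simpa using ha
  have hϖF : algebraMap k F ϖ ≠ 0 := by simpa using h.ϖ_ne
  set s : ℤ := so (C i₁) 𝔭₁ u - n * 𝔭₁.ord ((C i₁).r g) with hs
  have hso1 : so (C i₁) 𝔭₁ u = 𝔭₁.ord ((C i₁).r (algebraMap k F c * u)) := so_eq _ _ hc
  have hY1z : (C i₁).r (Y ^ s) ≠ 0 := by rw [Res.r_zpow h.r₁]; exact zpow_ne_zero _ h.r₁
  have hg1n : (C i₁).r (g ^ n) ≠ 0 := Res.r_pow_ne_zero hg1 n
  have hden : (C i₁).r (g ^ n * Y ^ s) ≠ 0 := Res.r_mul_ne_zero hg1n hY1z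
  set x : F := (algebraMap k F c * u) / (g ^ n * Y ^ s) with hx
  have hx1 : (C i₁).r x ≠ 0 := Res.r_div_ne_zero hc hden
  have hx1o : 𝔭₁.ord ((C i₁).r x) = 0 := by
    rw [hx, Res.r_div (Res.mem_of_r_ne_zero hc) hden,
      Res.r_mul (Res.mem_of_r_ne_zero hg1n) (Res.mem_of_r_ne_zero hY1z),
      Res.r_pow (Res.mem_of_r_ne_zero hg1), Res.r_zpow h.r₁, div_eq_mul_inv,
      𝔭₁.ord_mul hc (inv_ne_zero (mul_ne_zero (pow_ne_zero _ hg1) (zpow_ne_zero _ h.r₁))),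
      𝔭₁.ord_inv, 𝔭₁.ord_mul (pow_ne_zero _ hg1) (zpow_ne_zero _ h.r₁), ord_pow, ord_zpow',
      h.ord₁, ← hso1, hs]
    ring
  have hxg : ∀ P ∈ gen t M, P.ord x = 0 := by
    intro P hP
    rw [hx, div_eq_mul_inv, P.ord_mul (mul_ne_zero hcF hu0)
      (inv_ne_zero (mul_ne_zero (pow_ne_zero _ hg0) (zpow_ne_zero _ hY0))), P.ord_inv,
      P.ord_mul hcF hu0, P.ord_mul (pow_ne_zero _ hg0) (zpow_ne_zero _ hY0), ord_pow, ord_zpow',
      ord_algebraMap, hu P hP, hg P hP, h.gen P hP]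
    ring
  obtain ⟨hx2, hx2o⟩ := hN.unit₂ hB hC ht hS hxg hx1 hx1o
  -- the second component
  have hgz : (C i₂).r ((g / algebraMap k F a) ^ n) ≠ 0 := Res.r_pow_ne_zero hg2 n
  have hYz : (C i₂).r ((Y / algebraMap k F ϖ) ^ s) ≠ 0 := by
    rw [Res.r_zpow h.r₂]; exact zpow_ne_zero _ h.r₂
  have e : algebraMap k F (c / (a ^ n * ϖ ^ s)) * u =
      x * ((g / algebraMap k F a) ^ n * (Y / algebraMap k F ϖ) ^ s) := by
    have h1 : algebraMap k F ϖ ^ s ≠ 0 := zpow_ne_zero _ hϖF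
    have h2 : Y ^ s ≠ 0 := zpow_ne_zero _ hY0
    rw [hx, map_div₀, map_mul, map_pow, map_zpow₀, div_pow, div_zpow]
    field_simp
  have h2 : (C i₂).r (algebraMap k F (c / (a ^ n * ϖ ^ s)) * u) ≠ 0 := by
    rw [e]
    exact Res.r_mul_ne_zero hx2 (Res.r_mul_ne_zero hgz hYz)
  have h3 : so (C i₂) 𝔭₂ u = -s := by
    rw [so_eq _ _ h2, e, Res.r_mul (Res.mem_of_r_ne_zero hx2)
      (Res.mem_of_r_ne_zero (Res.r_mul_ne_zero hgz hYz)),
      Res.r_mul (Res.mem_of_r_ne_zero hgz) (Res.mem_of_r_ne_zero hYz),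
      Res.r_pow (Res.mem_of_r_ne_zero hg2), Res.r_zpow h.r₂,
      𝔭₂.ord_mul hx2 (mul_ne_zero (pow_ne_zero _ hg2) (zpow_ne_zero _ h.r₂)),
      𝔭₂.ord_mul (pow_ne_zero _ hg2) (zpow_ne_zero _ h.r₂), ord_pow, ord_zpow', h.ord₂, hx2o, hg3]
    ring
  rw [h3, neg_neg]
  exact ⟨by rw [hs]; ring, h2⟩

/-- **Monodromy at a node.** -/
theorem monodromy_node (hB : B.RankOne) (hC : Incomp C) (ht : IsGood C t)
    (hS : Surj C t) (hN : Node2 C t M i₁ i₂ 𝔭₁ 𝔭₂) {n : ℕ} (hn : n ≠ 0)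
    {D : Divisor k F} {u : F} (hu0 : u ≠ 0) (hu : ∀ P ∈ gen t M, P.ord u = n * D P)
    {g : F} {a : k} (ha : a ≠ 0)
    (hg : ∀ P ∈ gen t M, P.ord g = D P) (hg1 : (C i₁).r g ≠ 0)
    (hg2 : (C i₂).r (g / algebraMap k F a) ≠ 0)
    {σ : F ≃+* F} {σ₀ : k ≃+* k} {s : Place k F ≃ Place k F}
    (h : Inertial C σ σ₀ s) (h' : Inertial C σ.symm σ₀.symm s.symm) (hσt : σ t = t)
    {f : F} (hf : σ u / u = f ^ n) {γ₁ γ₂ : κ} (hγ₁ : γ₁ ≠ 0)
    (hf1 : (C i₁).r f = algebraMap κ _ γ₁) (hf2 : (C i₂).r f = algebraMap κ _ γ₂) :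
    γ₂ = γ₁ * B.r (σ₀ a / a) := by
  have hM := isPoint_of_spec hB hC ht ⟨𝔭₁, hN.spec₁⟩
  have hg0 : g ≠ 0 := Res.ne_zero_of_r hg1
  have hσg0 : σ g ≠ 0 := by simpa using hg0
  have hσu0 : σ u ≠ 0 := by simpa using hu0
  have hf0 : f ≠ 0 := by
    rintro rfl
    rw [zero_pow hn, div_eq_zero_iff] at hf
    tauto
  have hnZ : (n : ℤ) ≠ 0 := by exact_mod_cast hn
  have haF : algebraMap k F a ≠ 0 := by simpa using ha
  have hσa : σ₀ a ≠ 0 := by simpa using ha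
  have hσaF : algebraMap k F (σ₀ a) ≠ 0 := by simpa using hσa
  -- the residues of `σ g / g`
  have h1 : (C i₁).r (σ g / g) = 1 := by
    have h2 := h.r_eq i₁ g (Res.mem_of_r_ne_zero hg1)
    rw [Res.r_div (by exact h.mem i₁ g (Res.mem_of_r_ne_zero hg1)) hg1, h2, div_self hg1]
  have hua := h.unit a ha
  have h2 : (C i₂).r (σ g / g) = algebraMap κ _ (B.r (σ₀ a / a)) := by
    have h3 := h.r_eq i₂ _ (Res.mem_of_r_ne_zero hg2)
    have e : σ g / g = algebraMap k F (σ₀ a / a) *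
        (σ (g / algebraMap k F a) / (g / algebraMap k F a)) := by
      rw [map_div₀ σ, h.map_const, map_div₀]
      field_simp
    have h4 : (C i₂).r (σ (g / algebraMap k F a)) ≠ 0 := by rw [h3]; exact hg2
    rw [e, Res.r_mul (Res.mem_of_r_ne_zero ((C i₂).r_algebraMap_ne_zero hua))
      (Res.mem_of_r_ne_zero (Res.r_div_ne_zero h4 hg2)), Res.r_div (Res.mem_of_r_ne_zero h4) hg2,
      h3, div_self hg2, mul_one, (C i₂).r_algebraMap _ (Res.mem_of_r_ne_zero hua)]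
  have h20 : (C i₂).r (σ g / g) ≠ 0 := by
    rw [h2, Ne, FaithfulSMul.algebraMap_eq_zero_iff]; exact hua
  have h10 : (C i₁).r (σ g / g) ≠ 0 := by rw [h1]; exact one_ne_zero
  have hf10 : (C i₁).r f ≠ 0 := by
    rw [hf1, Ne, FaithfulSMul.algebraMap_eq_zero_iff]; exact hγ₁
  -- the function `ψ`
  set ψ : F := f / (σ g / g) with hψ
  have hq0 : σ g / g ≠ 0 := div_ne_zero hσg0 hg0
  have hψ1 : (C i₁).r ψ = algebraMap κ _ γ₁ := by
    rw [hψ, Res.r_div (Res.mem_of_r_ne_zero hf10) h10, h1, div_one, hf1]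
  have hψg : ∀ P ∈ gen t M, P.ord ψ = 0 := by
    intro P hP
    have hsP : s.symm P ∈ gen t M := by
      rw [h.gen_iff' hB hC ht hS h' hσt hM, s.apply_symm_apply]; exact hP
    have e1 : ∀ y : F, P.ord (σ y) = (s.symm P).ord y := by
      intro y
      have := h.ord (s.symm P) y
      rwa [s.apply_symm_apply] at this
    have e2 : (n : ℤ) * P.ord f = n * (D (s.symm P) - D P) := by
      rw [← ord_pow, ← hf, div_eq_mul_inv, P.ord_mul hσu0 (inv_ne_zero hu0), P.ord_inv, e1,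
        hu _ hsP, hu P hP]
      ring
    have e3 := mul_left_cancel₀ hnZ e2
    rw [hψ, div_eq_mul_inv, P.ord_mul hf0 (inv_ne_zero hq0), P.ord_inv, div_eq_mul_inv,
      P.ord_mul hσg0 (inv_ne_zero hg0), P.ord_inv, e1, hg _ hsP, hg P hP, e3]
    ring
  have hψ10 : (C i₁).r ψ ≠ 0 := by
    rw [hψ1, Ne, FaithfulSMul.algebraMap_eq_zero_iff]; exact hγ₁
  obtain ⟨h5, h6⟩ := hN.unit₂ hB hC ht hS hψg hψ10 (by rw [hψ1, ord_algebraMap])
  have hψ0 : ψ ≠ 0 := Res.ne_zero_of_r hψ10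
  have hloc := mem_loc_of hB hC ht hS hM
    (fun P hP => (mem_iff_ord P hψ0).mpr (hψg P hP).ge) (fun i hi => by
      rcases hN.branch i hi with rfl | rfl
      · exact Res.mem_of_r_ne_zero hψ10
      · exact Res.mem_of_r_ne_zero h5)
  have h7 := loc_value_eq hB hC ht hM.isMaximal.isPrime hN.spec₁ hN.spec₂ hloc
  have hf20 : (C i₂).r f ≠ 0 := by
    have e : f = ψ * (σ g / g) := by rw [hψ, div_mul_cancel₀ _ hq0]
    rw [e]
    exact Res.r_mul_ne_zero h5 h20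
  have hψ2 : (C i₂).r ψ = algebraMap κ _ (γ₂ / B.r (σ₀ a / a)) := by
    rw [hψ, Res.r_div (Res.mem_of_r_ne_zero hf20) h20, h2, hf2, map_div₀]
  rw [hψ1, hψ2, value_algebraMap, value_algebraMap] at h7
  rw [h7, div_mul_cancel₀ _ hua]

omit [IsAlgClosed k] [IsFunctionField k F] [Fintype ι] [DecidableEq ι] [Nonempty ι] in
/-- roots of functions with constant residue have constant residue -/
theorem exists_const_root {n : ℕ} (hn : n ≠ 0) {f : F} (i : ι) {γ : κ} (hγ : γ ≠ 0)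
    (hf : (C i).r (f ^ n) = algebraMap κ (𝓕 i) γ) :
    ∃ δ : κ, δ ≠ 0 ∧ (C i).r f = algebraMap κ (𝓕 i) δ := by
  have h0 : (C i).r (f ^ n) ≠ 0 := by
    rw [hf, Ne, FaithfulSMul.algebraMap_eq_zero_iff]; exact hγ
  have hfO : f ∈ (C i).O := by
    by_contra hfO
    have h1 := Res.inv_mem_of_notMem hfO
    have h2 := Res.r_inv_of_notMem hfO
    have h3 := Res.r_inv_ne_zero h0
    rw [← inv_pow, Res.r_pow h1, h2, zero_pow hn] at h3
    exact h3 rfl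
  rw [Res.r_pow hfO] at hf h0
  have hr0 : (C i).r f ≠ 0 := fun h => h0 (by rw [h, zero_pow hn])
  rcases transcendental_or (k := κ) ((C i).r f) with htr | ⟨c, hc⟩
  · exfalso
    have h1 := htr.pow (Nat.pos_of_ne_zero hn)
    rw [hf] at h1
    exact h1 (isAlgebraic_algebraMap γ)
  · refine ⟨c, ?_, hc⟩
    rintro rfl
    rw [map_zero] at hc
    exact hr0 hc

/-- **Monodromy.** Comparison of two nodes. -/
theorem monodromy_pair (hB : B.RankOne) (hBc : B.Commens) (hC : Incomp C) (ht : IsGood C t)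
    (hS : Surj C t) {Y : F} {ϖ : k} (hM : IsNode C t M i₁ i₂ 𝔭₁ 𝔭₂ Y ϖ)
    {M' : Ideal (chart C t)} {𝔭₁' : Place κ (𝓕 i₁)} {𝔭₂' : Place κ (𝓕 i₂)} {Y' : F} {ϖ' : k}
    (hM' : IsNode C t M' i₁ i₂ 𝔭₁' 𝔭₂' Y' ϖ') {n : ℕ} (hn : n ≠ 0) {u : F} (hu0 : u ≠ 0)
    (hu : ∀ P : Place k F, (n : ℤ) ∣ P.ord u) :
    ∃ b : k, b ≠ 0 ∧
      (∀ (σ : F ≃+* F) (σ₀ : k ≃+* k) (s : Place k F ≃ Place k F), Inertial C σ σ₀ s →
        Inertial C σ.symm σ₀.symm s.symm → σ t = t → (∃ f : F, σ u / u = f ^ n) →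
        B.r (σ₀ b / b) = 1) ∧
      B.r (b ^ n * ϖ ^ (-so (C i₂) 𝔭₂ u) / ϖ' ^ (-so (C i₂) 𝔭₂' u)) ≠ 0 := by
  classical
  have hnZ : (n : ℤ) ≠ 0 := by exact_mod_cast hn
  obtain ⟨D, hD⟩ : ∃ D : Divisor k F, ∀ P, P.ord u = n * D P := by
    choose d hd using hu
    refine ⟨Finsupp.ofSupportFinite d ((finite_support (k := k) u).subset fun P hP => ?_), hd⟩
    rw [Function.mem_support] at hP ⊢
    rw [hd]
    exact mul_ne_zero hnZ hP
  obtain ⟨c, hc0, hc⟩ := (C i₁).exists_scale u hu0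
  obtain ⟨g, a, ha, hg, hg1, hg2, hg3⟩ := exists_gen_node hB hBc hC ht hS hM D
  obtain ⟨g', a', ha', hg', hg1', hg2', hg3'⟩ := exists_gen_node hB hBc hC ht hS hM' D
  obtain ⟨-, hs⟩ := slope_node hB hBc hC ht hS hM hu0 (fun P _ => hD P) hc ha hg hg1 hg2 hg3
  obtain ⟨-, hs'⟩ := slope_node hB hBc hC ht hS hM' hu0 (fun P _ => hD P) hc ha' hg' hg1' hg2' hg3'
  refine ⟨a / a', div_ne_zero ha ha', fun σ σ₀ s h h' hσt ⟨f, hf⟩ => ?_, ?_⟩
  · -- residues of `f`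
    have hc1 : ∀ i, ∃ δ : κ, δ ≠ 0 ∧ (C i).r f = algebraMap κ (𝓕 i) δ := by
      intro i
      obtain ⟨γ, hγ, h1⟩ := h.exists_const hu0 i
      rw [hf] at h1
      exact exists_const_root hn i hγ h1
    obtain ⟨γ₁, hγ₁, h1⟩ := hc1 i₁
    obtain ⟨γ₂, hγ₂, h2⟩ := hc1 i₂
    have e1 := monodromy_node hB hC ht hS (Coord.toNode2 hM) hn hu0 (fun P _ => hD P) ha hg hg1 hg2
      h h' hσt hf hγ₁ h1 h2
    have e2 := monodromy_node hB hC ht hS (Coord.toNode2 hM') hn hu0 (fun P _ => hD P) ha' hg' hg1'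
      hg2' h h' hσt hf hγ₁ h1 h2
    have hua := h.unit a ha
    have hua' := h.unit a' ha'
    have e3 : B.r (σ₀ a / a) = B.r (σ₀ a' / a') := mul_left_cancel₀ hγ₁ (e1.symm.trans e2)
    have e4 : σ₀ (a / a') / (a / a') = (σ₀ a / a) / (σ₀ a' / a') := by
      have h3 : σ₀ a' ≠ 0 := by simpa using ha'
      rw [map_div₀]
      field_simp
    rw [e4, Res.r_div (Res.mem_of_r_ne_zero hua) hua', e3, div_self hua']
  · have h1 := scale_unit (C i₂) hs' hs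
    have hinv := Res.r_inv_ne_zero h1
    convert hinv using 2
    have h2 : ϖ ^ (-so (C i₂) 𝔭₂ u) ≠ 0 := zpow_ne_zero _ hM.ϖ_ne
    have h3 : ϖ' ^ (-so (C i₂) 𝔭₂' u) ≠ 0 := zpow_ne_zero _ hM'.ϖ_ne
    rw [div_pow]
    field_simp

/-- the orders on the two branches are opposite modulo `n` -/
theorem so_add_dvd (hB : B.RankOne) (hBc : B.Commens) (hC : Incomp C) (ht : IsGood C t)
    (hS : Surj C t) {Y : F} {ϖ : k} (hM : IsNode C t M i₁ i₂ 𝔭₁ 𝔭₂ Y ϖ) {n : ℕ} (hn : n ≠ 0)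
    {u : F} (hu0 : u ≠ 0) (hu : ∀ P : Place k F, (n : ℤ) ∣ P.ord u) :
    (n : ℤ) ∣ so (C i₁) 𝔭₁ u + so (C i₂) 𝔭₂ u := by
  classical
  have hnZ : (n : ℤ) ≠ 0 := by exact_mod_cast hn
  obtain ⟨D, hD⟩ : ∃ D : Divisor k F, ∀ P, P.ord u = n * D P := by
    choose d hd using hu
    refine ⟨Finsupp.ofSupportFinite d ((finite_support (k := k) u).subset fun P hP => ?_), hd⟩
    rw [Function.mem_support] at hP ⊢
    rw [hd]
    exact mul_ne_zero hnZ hP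
  obtain ⟨c, hc0, hc⟩ := (C i₁).exists_scale u hu0
  obtain ⟨g, a, ha, hg, hg1, hg2, hg3⟩ := exists_gen_node hB hBc hC ht hS hM D
  obtain ⟨h1, -⟩ := slope_node hB hBc hC ht hS hM hu0 (fun P _ => hD P) hc ha hg hg1 hg2 hg3
  exact ⟨𝔭₁.ord ((C i₁).r g), by rw [h1]; ring⟩

end Fermat.Agent.Mono
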